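import Fermat.Agent.LF3.SS
import Fermat.Agent.LS27.Dich
import Fermat.Agent.FrobE.Qbar
import Fermat.Agent.HGModule.TorsionLevel
import Fermat.Agent.Emb1.Main
import Fermat.Agent.Frob.Exists
import Fermat.Prelude.Def_FLTPrelim_ModularRep
import Fermat.Prelude.Def_WeierstrassCurve_PeuRamifiee

/-!
# Level lowering at `p` for elliptic curves, from the Jacobian form
-/

set_option autoImplicit false

noncomputable section

open WeierstrassCurve WeierstrassCurve.Affine WeierstrassCurve.Affine.Point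
open CuspForm ModularFormClass CongruenceSubgroup ModularCurve

namespace Fermat.Agent.LF3

open Fermat.Agent

local notation "Qb" => AlgebraicClosure ℚ
local notation "GQ" => (AlgebraicClosure ℚ ≃ₐ[ℚ] AlgebraicClosure ℚ)

/-- The Jacobian form of level lowering at `p`, all odd primes. -/
def MainJ2 : Prop := ∀ {N p : ℕ} [NeZero N] [NeZero (N * p)] [Fact p.Prime] (_ : ¬ p ∣ N)
    (_ : p ≠ 2) {E : Type} [AddCommGroup E] [Module (ZMod p) E] [DistribMulAction GQ E]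
    (_ : Module.finrank (ZMod p) E = 2)
    (_ : ∀ W : Submodule (ZMod p) E, (∀ g : GQ, ∀ x ∈ W, g • x ∈ W) → W = ⊥ ∨ W = ⊤)
    (KE : IntermediateField ℚ Qb) (_ : FiniteDimensional ℚ KE)
    (_ : ∀ σ : GQ, (∀ x ∈ KE, σ x = x) → ∀ v : E, σ • v = v)
    (S : Finset ℕ) (_ : p ∈ S) (_ : ∀ q : ℕ, q.Prime → q ∣ N * p → q ∈ S) (a : ℕ → ℤ)
    (_ : ∀ ℓ : ℕ, ℓ.Prime → ℓ ∉ S → ∀ A : ValuationSubring Qb, A.LiesOverPrime ℓ → ∀ τ : GQ,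
      A.IsFrobeniusAt τ ℓ → ∀ v : E, τ • τ • v - a ℓ • (τ • v) + ℓ • v = 0)
    {A : ValuationSubring Qb} (_ : A.LiesOverPrime p) {ζ : Qb} (_ : IsPrimitiveRoot ζ p) {e x : E}
    (_ : e ≠ 0) (_ : ∀ k : ℕ, x ≠ k • e)
    (_ : ∀ s ∈ A.inertiaSubgroupIn ℚ, ∀ k : ℕ, s ζ = ζ ^ k → s • e = k • e)
    (_ : ∀ s ∈ A.inertiaSubgroupIn ℚ, ∃ κ : ℕ, s • x = x + κ • e)
    (J₀ : Subgroup GQ) (β : Qb) (_ : ∀ s ∈ J₀, s • x = x)
    (_ : LLc.KHyp A p J₀ (A.valuation (ζ - 1)) β) {c : JZero (N * p)} (_ : c ≠ 0)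
    (_ : p • c = 0)
    (_ : ∀ (ℓ : ℕ) (hℓ : ℓ.Prime), ¬ ℓ ∣ N * p → ℓ ∉ S →
      heckeOperatorBar (N * p) ⟨ℓ, hℓ⟩ c = a ℓ • c),
    ∃ (f : CuspForm (Gamma0 N) 2) (𝔪 : Ideal (integralClosure ℤ ℂ)),
      f.IsNormalizedEigenform ∧ 𝔪.IsMaximal ∧ (p : integralClosure ℤ ℂ) ∈ 𝔪 ∧
      ∀ ℓ : ℕ, ℓ.Prime → ¬ ℓ ∣ N → ℓ ∉ S → ∃ b : integralClosure ℤ ℂ,
        (b : ℂ) = qCoeff f ℓ ∧ b - ((a ℓ : ℤ) : integralClosure ℤ ℂ) ∈ 𝔪

/-- The local data at `p`: a basis `e, x` of the `p`-torsion adapted to the inertia group, and a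
subgroup `J₀` with a Kummer generator. -/
def LocData (W : WeierstrassCurve ℤ) (p : ℕ) (A : ValuationSubring Qb) (ζ : Qb) : Prop :=
  ∃ (e x : Submodule.torsionBy ℤ ((W.map (Int.castRingHom ℚ))⁄Qb).Point (p : ℤ))
    (J₀ : Subgroup GQ) (β : Qb), e ≠ 0 ∧ (∀ k : ℕ, x ≠ k • e) ∧
    (∀ s ∈ A.inertiaSubgroupIn ℚ, ∀ k : ℕ, s ζ = ζ ^ k → s • e = k • e) ∧
    (∀ s ∈ A.inertiaSubgroupIn ℚ, ∃ κ : ℕ, s • x = x + κ • e) ∧
    (∀ s ∈ J₀, s • x = x) ∧ LLc.KHyp A p J₀ (A.valuation (ζ - 1)) β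

/-- good ordinary reduction -/
def LocGood : Prop := ∀ (W : WeierstrassCurve ℤ) {p : ℕ} [Fact p.Prime] (_ : p ≠ 2)
    (_ : ¬ (p : ℤ) ∣ W.Δ) {A : ValuationSubring Qb} (_ : A.LiesOverPrime p) {ζ : Qb}
    (_ : IsPrimitiveRoot ζ p)
    (N : AddSubgroup (Submodule.torsionBy ℤ ((W.map (Int.castRingHom ℚ))⁄Qb).Point (p : ℤ)))
    (_ : N ≠ ⊤) (_ : ∀ s ∈ A.inertiaSubgroupIn ℚ,
      ∀ v : Submodule.torsionBy ℤ ((W.map (Int.castRingHom ℚ))⁄Qb).Point (p : ℤ), s • v - v ∈ N),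
    LocData W p A ζ

/-- multiplicative reduction, peu ramifiée -/
def LocMult : Prop := ∀ (W : WeierstrassCurve ℤ) {p : ℕ} [Fact p.Prime] (_ : p ≠ 2)
    (_ : W.Δ ≠ 0) (_ : (p : ℤ) ∣ W.Δ) (_ : ¬ (p : ℤ) ∣ W.c₄) (_ : p ∣ padicValInt p W.Δ)
    {A : ValuationSubring Qb} (_ : A.LiesOverPrime p) {ζ : Qb} (_ : IsPrimitiveRoot ζ p),
    LocData W p A ζ

theorem finrank_tors (E : WeierstrassCurve ℚ) [E.IsElliptic] (p : ℕ) [hp : Fact p.Prime] :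
    Module.finrank (ZMod p) (Submodule.torsionBy ℤ (E⁄Qb).Point p) = 2 := by
  obtain ⟨Φ, -⟩ := LS27.exists_tors_equiv E p
  have h1 : Nat.card (Submodule.torsionBy ℤ (E⁄Qb).Point (p : ℤ)) = p ^ 2 := by
    rw [← Nat.card_congr Φ.toEquiv, Nat.card_fun, Nat.card_zmod, Nat.card_fin]
  have hfin : Finite (Submodule.torsionBy ℤ (E⁄Qb).Point (p : ℤ)) :=
    Nat.finite_of_card_ne_zero (by rw [h1]; exact pow_ne_zero 2 hp.out.ne_zero)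
  have h2 := Module.natCard_eq_pow_finrank (K := ZMod p)
    (V := Submodule.torsionBy ℤ (E⁄Qb).Point (p : ℤ))
  rw [h1, Nat.card_zmod] at h2
  exact (Nat.pow_right_injective hp.out.two_le h2).symm

theorem finite_tors (E : WeierstrassCurve ℚ) [E.IsElliptic] (p : ℕ) [hp : Fact p.Prime] :
    Finite (Submodule.torsionBy ℤ (E⁄Qb).Point (p : ℤ)) := by
  obtain ⟨Φ, -⟩ := LS27.exists_tors_equiv E p
  exact Finite.of_equiv _ Φ.toEquiv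

/-- the level of the torsion -/
theorem exists_level_tors (E : WeierstrassCurve ℚ) [E.IsElliptic] (p : ℕ) [hp : Fact p.Prime] :
    ∃ L : IntermediateField ℚ Qb, FiniteDimensional ℚ L ∧
      ∀ σ : GQ, (∀ x ∈ L, σ x = x) →
        ∀ v : Submodule.torsionBy ℤ (E⁄Qb).Point (p : ℤ), σ • v = v := by
  obtain ⟨L, hL, h⟩ := HGModule.exists_level E p (finite_tors E p)
  exact ⟨L, hL, fun σ hσ v => LinearMap.congr_fun (h σ hσ) v⟩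

/-- **Level lowering at `p`** for an integral Weierstrass equation. -/
theorem lower (hJ : MainJ2) (hG : LocGood) (hM : LocMult) (W : WeierstrassCurve ℤ)
    (hΔ : W.Δ ≠ 0) {p : ℕ} (hp : p.Prime) (hp2 : p ≠ 2)
    (hloc : (p : ℤ) ∣ W.Δ → ¬ (p : ℤ) ∣ W.c₄ ∧ p ∣ padicValInt p W.Δ)
    (hirr : W.ModRepIsIrreducible p) {N : ℕ} (hN : N ≠ 0) (hpN : ¬ p ∣ N)
    (hmod : W.IsResiduallyModularOfLevel p (N * p)) : W.IsResiduallyModularOfLevel p N := by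
  obtain ⟨f, 𝔪, hf, h𝔪, hp𝔪, hcong⟩ := hmod
  have hpF : Fact p.Prime := ⟨hp⟩
  have : NeZero N := ⟨hN⟩
  have : NeZero p := ⟨hp.ne_zero⟩
  have hNp : NeZero (N * p) := ⟨mul_ne_zero hN hp.ne_zero⟩
  have hell : (W.map (Int.castRingHom ℚ)).IsElliptic := by
    refine ⟨isUnit_iff_ne_zero.mpr ?_⟩
    rw [WeierstrassCurve.map_Δ]
    exact (map_ne_zero_iff _ Int.cast_injective).mpr hΔ
  have hW : W.IsIntegralModelOf (W.map (Int.castRingHom ℚ)) := ⟨1, by simp⟩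
  set S : Finset ℕ := ((N * p).primeFactors ∪ W.Δ.natAbs.primeFactors) ∪ {p} with hS
  have hS1 : ∀ q : ℕ, q.Prime → q ∣ N * p → q ∈ S := fun q hq hqd => by
    rw [hS]
    exact Finset.mem_union_left _ (Finset.mem_union_left _
      (Nat.mem_primeFactors.mpr ⟨hq, hqd, hNp.out⟩))
  have hSp : p ∈ S := by
    rw [hS]
    exact Finset.mem_union_right _ (Finset.mem_singleton_self _)
  have hS2 : ∀ ℓ : ℕ, ℓ.Prime → ℓ ∉ S → W.IsGoodPrimeFor ℓ ∧ ℓ ≠ p := by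
    intro ℓ hℓ hℓS
    refine ⟨fun h => hℓS ?_, fun h => hℓS (h ▸ hSp)⟩
    rw [hS]
    refine Finset.mem_union_left _ (Finset.mem_union_right _
      (Nat.mem_primeFactors.mpr ⟨hℓ, ?_, Int.natAbs_ne_zero.mpr hΔ⟩))
    exact Int.natCast_dvd.mp h
  have hS3 : ∀ ℓ : ℕ, ℓ.Prime → W.IsGoodPrimeFor ℓ → ¬ ℓ ∣ N → ℓ ≠ p → ℓ ∉ S := by
    intro ℓ hℓ hg hℓN hℓp hmem
    rw [hS, Finset.mem_union, Finset.mem_union, Nat.mem_primeFactors, Nat.mem_primeFactors,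
      Finset.mem_singleton] at hmem
    rcases hmem with (⟨-, h, -⟩ | ⟨-, h, -⟩) | h
    · rcases hℓ.dvd_mul.mp h with h | h
      · exact hℓN h
      · exact hℓp ((Nat.prime_dvd_prime_iff_eq hℓ hp).mp h)
    · exact hg (Int.natCast_dvd.mpr h)
    · exact hℓp h
  -- the class in the Jacobian
  obtain ⟨c, hc0, hpc, hcT⟩ := Emb1.exists_class_of_eigenform (S := (↑S : Set ℕ)) (p := p)
    (fun q hq hqd => Finset.mem_coe.mpr (hS1 q hq hqd)) f hf 𝔪 h𝔪 hp𝔪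
    (fun ℓ => W.apOfModel ℓ) (fun ℓ hℓ hℓN hℓS => by
      obtain ⟨hg, hℓp⟩ := hS2 ℓ hℓ (fun h => hℓS (Finset.mem_coe.mpr h))
      exact hcong ℓ hℓ hg hℓN hℓp)
  have hcT' : ∀ (ℓ : ℕ) (hℓ : ℓ.Prime), ¬ ℓ ∣ N * p → ℓ ∉ S →
      heckeOperatorBar (N * p) ⟨ℓ, hℓ⟩ c = W.apOfModel ℓ • c :=
    fun ℓ hℓ hℓN hℓS => hcT ℓ hℓ hℓN (fun h => hℓS (Finset.mem_coe.mp h))
  -- the root of unity
  obtain ⟨ζ, hζ⟩ := HasEnoughRootsOfUnity.exists_primitiveRoot Qb p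
  -- the level
  obtain ⟨KE, hKE, hKE'⟩ := exists_level_tors (W.map (Int.castRingHom ℚ)) p
  have hdim := finrank_tors (W.map (Int.castRingHom ℚ)) p
  have hirr' : ∀ W₁ : Submodule (ZMod p)
      (Submodule.torsionBy ℤ ((W.map (Int.castRingHom ℚ))⁄Qb).Point (p : ℤ)),
      (∀ g : GQ, ∀ x ∈ W₁, g • x ∈ W₁) → W₁ = ⊥ ∨ W₁ = ⊤ :=
    fun W₁ hW₁ => hirr.2 W₁ (fun σ y hy => hW₁ σ y hy)
  have hfr : ∀ ℓ : ℕ, ℓ.Prime → ℓ ∉ S → ∀ A : ValuationSubring Qb, A.LiesOverPrime ℓ →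
      ∀ τ : GQ, A.IsFrobeniusAt τ ℓ →
      ∀ v : Submodule.torsionBy ℤ ((W.map (Int.castRingHom ℚ))⁄Qb).Point (p : ℤ),
        τ • τ • v - W.apOfModel ℓ • (τ • v) + ℓ • v = 0 := by
    intro ℓ hℓ hℓS B hB τ hτ v
    obtain ⟨hg, hℓp⟩ := hS2 ℓ hℓ hℓS
    have h5 := FrobE.frob_char_torsion (W.map (Int.castRingHom ℚ)) hW hℓ hg hB hτ
      (hp.odd_of_ne_two hp2) (fun h => hℓp ((Nat.prime_dvd_prime_iff_eq hℓ hp).mp h)) v
    rw [natCast_zsmul] at h5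
    exact h5
  -- the ordinary and multiplicative cases
  have hdata : ∀ {A : ValuationSubring Qb}, A.LiesOverPrime p → LocData W p A ζ →
      W.IsResiduallyModularOfLevel p N := by
    rintro A hA ⟨e, x, J₀, β, he, hx, hIe, hIx, hJx, H⟩
    obtain ⟨f', 𝔪', h1, h2, h3, h4⟩ := hJ hpN hp2 hdim hirr' KE hKE hKE' S hSp hS1
      (fun ℓ => W.apOfModel ℓ) hfr hA hζ he hx hIe hIx J₀ β hJx H hc0 hpc hcT'
    exact ⟨f', 𝔪', h1, h2, h3, fun ℓ hℓ hg hℓN hℓp => h4 ℓ hℓ hℓN (hS3 ℓ hℓ hg hℓN hℓp)⟩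
  have hAp : (padicPlace p).LiesOverPrime p := CFT6.liesOver_padic p
  by_cases hd : (p : ℤ) ∣ W.Δ
  · obtain ⟨h4, hv⟩ := hloc hd
    exact hdata hAp (hM W hp2 hΔ hd h4 hv hAp hζ)
  · rcases LS27.dich_int W hell hirr hd hp2 with ⟨N₁, hN₁, hI⟩ | hss
    · exact hdata hAp (hG W hp2 hd hAp hζ N₁ hN₁ hI)
    · obtain ⟨s, hs, s', hs', k, v, hk, hne⟩ := hss hζ.pow_eq_one
      obtain ⟨f', 𝔪', h1, h2, h3, h4⟩ := mainSS hpN hp2 hdim hirr' KE hKE hKE' S hSp hS1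
        (fun ℓ => W.apOfModel ℓ) hfr hAp hζ hs hs' hk hne hc0 hpc hcT'
      exact ⟨f', 𝔪', h1, h2, h3, fun ℓ hℓ hg hℓN hℓp => h4 ℓ hℓ hℓN (hS3 ℓ hℓ hg hℓN hℓp)⟩

/-- peu ramifiée, for an integral equation -/
theorem dvd_of_isPeuRamifieeAt {W : WeierstrassCurve ℤ} {p : ℕ}
    (h : (W.map (Int.castRingHom ℚ)).IsPeuRamifieeAt p p) : p ∣ padicValInt p W.Δ := by
  have h1 : (p : ℤ) ∣ padicValRat p ((W.map (Int.castRingHom ℚ)).Δ) := h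
  have h2 : (W.map (Int.castRingHom ℚ)).Δ = ((W.Δ : ℤ) : ℚ) := by
    rw [WeierstrassCurve.map_Δ]; rfl
  rw [h2, padicValRat.of_int] at h1
  exact_mod_cast h1

/-- the statement of `S39` -/
theorem s39_of (hJ : MainJ2) (hG : LocGood) (hM : LocMult) (W : WeierstrassCurve ℤ)
    (hΔ : W.Δ ≠ 0) {p : ℕ} (hp : p.Prime) (hp2 : p ≠ 2)
    (hsemi : (p : ℤ) ∣ W.Δ → ¬ (p : ℤ) ∣ W.c₄)
    (hirr : W.ModRepIsIrreducible p)
    (hfin : (W.map (Int.castRingHom ℚ)).IsPeuRamifieeAt p p)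
    {M : ℕ} (hM0 : 0 < M) (hpM : p ∣ M) (hp2M : ¬ p ^ 2 ∣ M)
    (hmod : W.IsResiduallyModularOfLevel p M) :
    W.IsResiduallyModularOfLevel p (M / p) := by
  obtain ⟨k, rfl⟩ := hpM
  rw [Nat.mul_div_cancel_left k hp.pos]
  refine lower hJ hG hM W hΔ hp hp2 (fun h => ⟨hsemi h, dvd_of_isPeuRamifieeAt hfin⟩) hirr
    (N := k) (by rintro rfl; omega) (fun h => hp2M ?_) (by rwa [mul_comm])
  rw [pow_two]
  exact mul_dvd_mul_left p h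

/-- the statement of `S40` -/
theorem s40_of (hJ : MainJ2) (hG : LocGood) (hM : LocMult) (W : WeierstrassCurve ℤ)
    (hΔ : W.Δ ≠ 0) {p : ℕ} (hp : p.Prime) (hp2 : p ≠ 2)
    (hgood : W.IsGoodPrimeFor p)
    (hirr : W.ModRepIsIrreducible p)
    {M : ℕ} (hM0 : 0 < M) (hpM : p ∣ M) (hp2M : ¬ p ^ 2 ∣ M)
    (hmod : W.IsResiduallyModularOfLevel p M) :
    W.IsResiduallyModularOfLevel p (M / p) := by
  obtain ⟨k, rfl⟩ := hpM
  rw [Nat.mul_div_cancel_left k hp.pos]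
  refine lower hJ hG hM W hΔ hp hp2 (fun h => (hgood h).elim) hirr
    (N := k) (by rintro rfl; omega) (fun h => hp2M ?_) (by rwa [mul_comm])
  rw [pow_two]
  exact mul_dvd_mul_left p h

end Fermat.Agent.LF3
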