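import Fermat.Agent.LF3.Lower
import Fermat.Agent.LM3.Mult

/-!
# The local data in the multiplicative case
-/

set_option autoImplicit false

noncomputable section

open WeierstrassCurve WeierstrassCurve.Affine WeierstrassCurve.Affine.Point

namespace Fermat.Agent.LF3

theorem isPeuRamifieeAt_of_dvd {W : WeierstrassCurve ℤ} {p : ℕ}
    (h : p ∣ padicValInt p W.Δ) : (W.map (Int.castRingHom ℚ)).IsPeuRamifieeAt p p := by
  have h2 : (W.map (Int.castRingHom ℚ)).Δ = ((W.Δ : ℤ) : ℚ) := by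
    rw [WeierstrassCurve.map_Δ]; rfl
  change (p : ℤ) ∣ padicValRat p ((W.map (Int.castRingHom ℚ)).Δ)
  rw [h2, padicValRat.of_int]
  exact_mod_cast h

theorem locMult : LocMult := by
  intro W p _ hp2 hΔ0 hΔ hc hv A hA ζ hζ
  obtain ⟨e, x, he, hx, hIe, hIx, J₀, β, hJ, H⟩ :=
    LM3.mult_data hp2 hΔ0 hΔ hc (isPeuRamifieeAt_of_dvd hv) hA hζ
  exact ⟨e, x, J₀, β, he, hx, hIe, hIx, hJ, H⟩

end Fermat.Agent.LF3
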