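import Fermat.Agent.LF3.Good
import Fermat.Agent.LF3.Mult
import Fermat.Agent.LD6.MainAll
import Fermat.Agent.LD6.DegAll

/-!
# `S39` and `S40` from the core theorem
-/

set_option autoImplicit false

noncomputable section

open WeierstrassCurve

namespace Fermat.Agent.LF3

/-- `S39` from the core theorem -/
theorem s39_of_core (hcore : LD6.CoreAll) (W : WeierstrassCurve ℤ)
    (hΔ : W.Δ ≠ 0) {p : ℕ} (hp : p.Prime) (hp2 : p ≠ 2)
    (hsemi : (p : ℤ) ∣ W.Δ → ¬ (p : ℤ) ∣ W.c₄)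
    (hirr : W.ModRepIsIrreducible p)
    (hfin : (W.map (Int.castRingHom ℚ)).IsPeuRamifieeAt p p)
    {M : ℕ} (hM : 0 < M) (hpM : p ∣ M) (hp2M : ¬ p ^ 2 ∣ M)
    (hmod : W.IsResiduallyModularOfLevel p M) :
    W.IsResiduallyModularOfLevel p (M / p) :=
  s39_of (LD6.mainJ2_of hcore LD6.degAll) locGood locMult W hΔ hp hp2 hsemi hirr hfin hM hpM hp2M
    hmod

/-- `S40` from the core theorem -/
theorem s40_of_core (hcore : LD6.CoreAll) (W : WeierstrassCurve ℤ)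
    (hΔ : W.Δ ≠ 0) {p : ℕ} (hp : p.Prime) (hp2 : p ≠ 2)
    (hgood : W.IsGoodPrimeFor p)
    (hirr : W.ModRepIsIrreducible p)
    {M : ℕ} (hM : 0 < M) (hpM : p ∣ M) (hp2M : ¬ p ^ 2 ∣ M)
    (hmod : W.IsResiduallyModularOfLevel p M) :
    W.IsResiduallyModularOfLevel p (M / p) :=
  s40_of (LD6.mainJ2_of hcore LD6.degAll) locGood locMult W hΔ hp hp2 hgood hirr hM hpM hp2M
    hmod

end Fermat.Agent.LF3
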