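import Fermat.Agent.LF3.Lower
import Fermat.Agent.LO3.Main

/-!
# The local data in the good ordinary case
-/

set_option autoImplicit false

noncomputable section

open WeierstrassCurve WeierstrassCurve.Affine WeierstrassCurve.Affine.Point

namespace Fermat.Agent.LF3

theorem locGood : LocGood := by
  intro W p _ hp2 hpΔ A hA ζ hζ N hN hI
  obtain ⟨e, x, J₀, β, he, hx, hIe, hIx, hJ, H⟩ := LO3.exists_data W hp2 hpΔ hA hζ N hN hI
  exact ⟨e, x, J₀, β, he, hx, hIe, hIx, hJ, H⟩

end Fermat.Agent.LF3
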