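import Fermat.Agent.LS3.Inertia

/-!
# Level lowering at `p`: the supersingular case

If the inertia group at `p` does not act on `E` by an extension of the trivial character by the
cyclotomic character, then the representation `E` does not occur in the new part of the Jacobian of
`X₀(N p)`, so that it occurs in level `N`.
-/

set_option autoImplicit false
set_option linter.unusedSectionVars false
set_option maxHeartbeats 1000000

noncomputable section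

open AlgebraicCurve Module IntermediateField ModularCurve HahnSeries CuspForm ModularFormClass
  CongruenceSubgroup

attribute [-instance] Fermat.Agent.X0Places.ffField Fermat.Agent.X0Places.ffAlgebra

namespace Fermat.Agent.LF3

open Fermat.Agent.BadRed Fermat.Agent.LLp Fermat.Agent.LLu Fermat.Agent.LLc Fermat.Agent.Degen
open Fermat.Agent.FunField Fermat.Agent.FunField.PlaceLemmas Fermat.Agent.Deuring
open Fermat.Agent.Igusa Fermat.Agent.AtkinLehner Fermat.Agent.HeckeRed Fermat.Agent.TorsCmp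
open Fermat.Agent.LLv

local notation "Qb" => AlgebraicClosure ℚ
local notation "GQ" => (AlgebraicClosure ℚ ≃ₐ[ℚ] AlgebraicClosure ℚ)

set_option synthInstance.maxHeartbeats 400000 in
/-- **Level lowering at `p`, supersingular case.** -/
theorem mainSS {N p : ℕ} [NeZero N] [NeZero (N * p)] [hp : Fact p.Prime] (hpN : ¬ p ∣ N)
    (hp2 : p ≠ 2) {E : Type} [AddCommGroup E] [Module (ZMod p) E] [DistribMulAction GQ E]
    (hdim : Module.finrank (ZMod p) E = 2)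
    (hirr : ∀ W : Submodule (ZMod p) E, (∀ g : GQ, ∀ x ∈ W, g • x ∈ W) → W = ⊥ ∨ W = ⊤)
    (KE : IntermediateField ℚ Qb) (hKE : FiniteDimensional ℚ KE)
    (hE : ∀ σ : GQ, (∀ x ∈ KE, σ x = x) → ∀ v : E, σ • v = v) (S : Finset ℕ) (hpS : p ∈ S)
    (hS : ∀ q : ℕ, q.Prime → q ∣ N * p → q ∈ S) (a : ℕ → ℤ)
    (frE : ∀ ℓ : ℕ, ℓ.Prime → ℓ ∉ S → ∀ A : ValuationSubring Qb, A.LiesOverPrime ℓ →
      ∀ τ : GQ, A.IsFrobeniusAt τ ℓ → ∀ v : E, τ • τ • v - a ℓ • (τ • v) + ℓ • v = 0)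
    {A : ValuationSubring Qb} (hA : A.LiesOverPrime p) {ζ : Qb} (hζ : IsPrimitiveRoot ζ p)
    {v : E} {s s' : GQ} (hs : s ∈ A.inertiaSubgroupIn ℚ) (hs' : s' ∈ A.inertiaSubgroupIn ℚ)
    {k : ℕ} (hk : s' ζ = ζ ^ k) (hne : s' • (s • v - v) ≠ k • (s • v - v))
    {c : JZero (N * p)} (hc0 : c ≠ 0)
    (hpc : p • c = 0) (hcT : ∀ (ℓ : ℕ) (hℓ : ℓ.Prime), ¬ ℓ ∣ N * p → ℓ ∉ S →
      heckeOperatorBar (N * p) ⟨ℓ, hℓ⟩ c = a ℓ • c) :
    ∃ (f : CuspForm (Gamma0 N) 2) (𝔪 : Ideal (integralClosure ℤ ℂ)), f.IsNormalizedEigenform ∧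
      𝔪.IsMaximal ∧ (p : integralClosure ℤ ℂ) ∈ 𝔪 ∧ ∀ ℓ : ℕ, ℓ.Prime → ¬ ℓ ∣ N → ℓ ∉ S →
        ∃ b : integralClosure ℤ ℂ, (b : ℂ) = qCoeff f ℓ ∧
          b - ((a ℓ : ℤ) : integralClosure ℤ ℂ) ∈ 𝔪 := by
  have i1 : NeZero p := ⟨hp.out.ne_zero⟩
  have hex : ZAL.ExDiv p (N * p) := exDiv hp.out hpN
  have hSN : ∀ q : ℕ, q.Prime → q ∣ N → q ∈ (S : Set ℕ) := fun q hq h => hS q hq (h.mul_right p)
  have hcV : c ∈ eigJ (N * p) p S a :=
    ⟨hpc, fun ℓ hℓ hℓS => hcT ℓ hℓ (fun h => hℓS (hS ℓ hℓ h)) hℓS⟩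
  by_cases hold : ∃ c ∈ eigJ (N * p) p S a, pushPic (heckeAlphaBar Qb N p) c ≠ 0
  · -- the old case
    obtain ⟨c, hc, hne⟩ := hold
    have h1 := push_mem_eigJ hS hc
    exact PIC.exists_eigenform_of_classJ (S := (S : Set ℕ)) hSN a hne h1.1
      (fun ℓ hℓ _ hℓS => h1.2 ℓ hℓ hℓS)
  push Not at hold
  -- the sign of the involution
  obtain ⟨ε, hε, c₁, hc₁, hc₁0⟩ := exists_sign (p := p) hex hS hcV hc0
  -- the embedding
  obtain ⟨ι, hι, hιV, hιg⟩ := exists_embedding_J (M := N * p) hp2 hdim hirr KE hKE hE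
    (eigW hex S a p ε) ⟨c₁, hc₁, hc₁0⟩ (fun c hc => hc.1.1) (fun σ c hc => gal_mem_eigW hc σ) S hpS
    hS a (fun c hc ℓ hℓ hℓS => hc.1.2 ℓ hℓ hℓS) frE
  have hww : ∀ c ∈ eigW hex S a p ε,
      pushPic (heckeAlphaBar Qb N p) (ZAL.wS iotaQbar hex • c) = 0 :=
    fun c hc => hold _ (w_mem_eigJ hex hS hc.1)
  have h1 := LS3.inertia_J hpN hp2 hA hζ hex (hιV v).1.1 hε (hιV v).2 (hww _ (hιV v)) hs hs' hk
  refine (hne (hι ?_)).elim
  have h2 : ι (s' • (s • v - v)) = s' • (s • ι v - ι v) := by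
    rw [hιg, map_sub, hιg]
  have h3 : ι (k • (s • v - v)) = k • (s • ι v - ι v) := by
    rw [map_nsmul, map_sub, hιg]
  rw [h2, h3]
  exact h1

end Fermat.Agent.LF3
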